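import Mathlib
import Fermat.Agent.S51
import Fermat.Agent.S52
import Fermat.Prelude.Def_WeierstrassCurve_Mlc1RowStatement

/-!
# GLUE (helper69): conditional wiring of the modularity rows

* `h69_mlc1_of` : `S59 ∧ LT3 ⟹` every semistable integral Weierstrass curve with `Δ ≠ 0` is
  modular of exact conductor level (with S51 and S52 on main; `LT3` = Langlands–Tunnell output
  with the `3`-part of the level under control: `¬ 9 ∣ M`);
* `h69_S60_of` : `S59 ∧ LT3 ⟹ S60`.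
-/

set_option autoImplicit false

open WeierstrassCurve WeierstrassCurve.Affine WeierstrassCurve.Affine.Point
open CuspForm ModularFormClass UpperHalfPlane

namespace Fermat.Agent.GLUE

/-- The type of the frozen statement S59. -/
def h69_S59 : Prop :=
  ∀ (p : ℕ), p = 3 ∨ p = 5 → ∀ (W : WeierstrassCurve ℤ), W.Δ ≠ 0 → W.IsSemistableModel →
    W.ModRepIsIrreducible p → ∀ (M₀ : ℕ) [NeZero M₀], W.IsResiduallyModularOfLevel p M₀ →
    ¬ p ^ 2 ∣ M₀ → (∀ q : ℕ, q.Prime → q ≠ p → ¬ q ^ 3 ∣ M₀) →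
    Mlc1IsModularModelOfExactConductorLevel W

/-- Langlands–Tunnell in the form consumed by S59: residual modularity mod `3` at a level `M`
with `¬ 9 ∣ M`, cube-free away from `3`. (S50 gives this except for `¬ 9 ∣ M`.) -/
def h69_LT3 : Prop :=
  ∀ (W : WeierstrassCurve ℤ), W.Δ ≠ 0 → W.IsSemistableModel → W.ModRepIsIrreducible 3 →
    ∃ M : ℕ, 0 < M ∧ W.IsResiduallyModularOfLevel 3 M ∧ ¬ 3 ^ 2 ∣ M ∧
      (∀ q : ℕ, q.Prime → q ≠ 3 → ¬ q ^ 3 ∣ M)

/-- The type of the frozen statement S60. -/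
def h69_S60 : Prop :=
  ∀ (W : WeierstrassCurve ℤ), W.Δ ≠ 0 → W.IsSemistableModel →
    (W.map (Int.castRingHom ℚ)).IsModular

theorem h69_mlc1_of_three (h59 : h69_S59) (hLT : h69_LT3) (W : WeierstrassCurve ℤ)
    (hΔ : W.Δ ≠ 0) (hW : W.IsSemistableModel) (h3 : W.ModRepIsIrreducible 3) :
    Mlc1IsModularModelOfExactConductorLevel W := by
  obtain ⟨M, hM, hres, h9, hcube⟩ := hLT W hΔ hW h3
  have : NeZero M := ⟨hM.ne'⟩
  exact h59 3 (Or.inl rfl) W hΔ hW h3 M hres h9 hcube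

/-- `S59 ∧ LT3 ⟹` modularity at exact conductor level for all semistable curves
(3–5 switch S52 and S51 from main). -/
theorem h69_mlc1_of (h59 : h69_S59) (hLT : h69_LT3) (W : WeierstrassCurve ℤ)
    (hΔ : W.Δ ≠ 0) (hW : W.IsSemistableModel) :
    Mlc1IsModularModelOfExactConductorLevel W := by
  rcases Fermat.Agent.S51.result W hΔ hW with h3 | h5
  · exact h69_mlc1_of_three h59 hLT W hΔ hW h3
  · obtain ⟨W', hΔ', hW', h3', hcong⟩ := Fermat.Agent.S52.result W hΔ hW h5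
    obtain ⟨N', hN', hsq, hiff, f', hf', hap⟩ := h69_mlc1_of_three h59 hLT W' hΔ' hW' h3'
    obtain ⟨𝔪, h𝔪, h5𝔪⟩ := FLTPrelim.exists_maximalIdeal_natCast_prime_mem (p := 5) (by norm_num)
    have : NeZero N' := ⟨hN'.ne'⟩
    have hres : W.IsResiduallyModularOfLevel 5 N' := by
      refine ⟨f', 𝔪, hf', h𝔪, h5𝔪, ?_⟩
      intro ℓ hℓ hgood hℓN hℓ5
      have hgood' : W'.IsGoodPrimeFor ℓ := fun hdvd => hℓN ((hiff ℓ hℓ).mpr hdvd)
      refine ⟨((W'.apOfModel ℓ : ℤ) : integralClosure ℤ ℂ), ?_, ?_⟩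
      · rw [hap ℓ hℓ hgood' hℓN]
        simp
      · obtain ⟨k, hk⟩ := hcong ℓ hℓ hgood hgood' hℓ5
        have : ((W'.apOfModel ℓ : ℤ) : integralClosure ℤ ℂ) -
            ((W.apOfModel ℓ : ℤ) : integralClosure ℤ ℂ) =
            ((5 : ℕ) : integralClosure ℤ ℂ) * ((k : ℤ) : integralClosure ℤ ℂ) := by
          rw [← Int.cast_sub, hk]
          push_cast
          ring
        rw [this]
        exact Ideal.mul_mem_right _ _ h5𝔪
    refine h59 5 (Or.inr rfl) W hΔ hW h5 N' hres ?_ ?_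
    · intro h25
      exact Nat.squarefree_iff_prime_squarefree.mp hsq 5 (by norm_num) (by rwa [← pow_two])
    · intro q hq _ hq3
      refine Nat.squarefree_iff_prime_squarefree.mp hsq q hq ?_
      exact dvd_trans ⟨q, by ring⟩ hq3

/-- `S59 ∧ LT3 ⟹ S60`. -/
theorem h69_S60_of (h59 : h69_S59) (hLT : h69_LT3) : h69_S60 := by
  intro W hΔ hW
  obtain ⟨N, hN, -, -, hmod⟩ := h69_mlc1_of h59 hLT W hΔ hW
  exact ⟨W, ⟨1, one_smul _ _⟩, N, hN, hmod⟩

end Fermat.Agent.GLUE
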