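import Mathlib
import Fermat.Agent.S02
import Fermat.Agent.S05
import Fermat.Agent.S07
import Fermat.Agent.S08
import Fermat.Agent.S10
import Fermat.Agent.S11
import Fermat.Agent.S13
import Fermat.Prelude.Def_FreyPackage_IsConductorLevel

/-!
# GLUE (helper69): kernel-checked conditional wiring of the glue rows

Every wall enters as a named hypothesis whose type is the frozen statement (restated, never
cited).  What is proved here from landed statements:

* `h69_S09_of` : `S12 ⟹ S09` (with S10, S11, S13 on main);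
* `h69_S03_of` : `S04 ∧ S09 ∧ S45 ⟹ S03` (with S07 on main);
* `h69_S45_of` : `S06 ∧ S43 ∧ S44 ⟹ S45` (with S05, S08 on main);
* `h69_S01_of` : `S03 ⟹ S01` (with S02 on main and Mathlib's exponents 3 and 4).
-/

set_option autoImplicit false

open WeierstrassCurve WeierstrassCurve.Affine WeierstrassCurve.Affine.Point
open CuspForm ModularFormClass UpperHalfPlane

namespace Fermat.Agent.GLUE

/-- The type of the frozen statement S12. -/
def h69_S12 : Prop :=
  ∀ (P : FreyPackage), 17 ≤ P.p →
    ¬ HasGaloisStableCofixedLine (K := AlgebraicClosure ℚ) ℚ P.freyCurve P.p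

/-- The type of the frozen statement S09. -/
def h69_S09 : Prop :=
  ∀ (P : FreyPackage), GaloisRepIsIrreducible (K := AlgebraicClosure ℚ) ℚ P.freyCurve P.p

/-- The type of the frozen statement S04. -/
def h69_S04 : Prop := ∀ (P : FreyPackage), P.freyCurve.IsModular

/-- The type of the frozen statement S45. -/
def h69_S45 : Prop :=
  ∀ (P : FreyPackage), P.freyCurve.IsModular →
    GaloisRepIsIrreducible (K := AlgebraicClosure ℚ) ℚ P.freyCurve P.p →
    ∃ f : CuspForm (CongruenceSubgroup.Gamma0 2) 2, f ≠ 0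

/-- The type of the frozen statement S03. -/
def h69_S03 : Prop := ∀ (_ : FreyPackage), False

/-- The type of the frozen statement S06. -/
def h69_S06 : Prop :=
  ∀ (P : FreyPackage), ∃ N : ℕ, P.IsConductorLevel N ∧ P.ModularRepOfLevel N

/-- The type of the frozen statement S43. -/
def h69_S43 : Prop :=
  ∀ (P : FreyPackage) {N q : ℕ}, P.IsConductorLevel N → q.Prime → q ≠ 2 → q ≠ P.p → q ∣ N →
    GaloisRepIsIrreducible (K := AlgebraicClosure ℚ) ℚ P.freyCurve P.p →
    P.ModularRepOfLevel N → P.GaloisRepUnramifiedAt q →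
    ∃ M : ℕ, M ∣ N ∧ ¬ q ∣ M ∧ P.ModularRepOfLevel M

/-- The type of the frozen statement S44. -/
def h69_S44 : Prop :=
  ∀ (P : FreyPackage) {N : ℕ}, P.IsConductorLevel N → P.p ∣ N →
    GaloisRepIsIrreducible (K := AlgebraicClosure ℚ) ℚ P.freyCurve P.p →
    P.ModularRepOfLevel N →
    ∃ M : ℕ, M ∣ N ∧ ¬ P.p ∣ M ∧ P.ModularRepOfLevel M

/-- `S12 ⟹ S09`. -/
theorem h69_S09_of (h12 : h69_S12) : h69_S09 := by
  intro P
  by_contra hred
  have hline := Fermat.Agent.S13.result P hred
  have hp5 := P.hp5
  have hpp := P.pp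
  by_cases h17 : 17 ≤ P.p
  · exact h12 P h17 hline
  · have hlt : P.p < 17 := not_le.mp h17
    have hcases : P.p = 5 ∨ P.p = 7 ∨ P.p = 11 ∨ P.p = 13 := by
      have : ∀ n : ℕ, 5 ≤ n → n < 17 → n.Prime → n = 5 ∨ n = 7 ∨ n = 11 ∨ n = 13 := by
        intro n h1 h2 h3
        interval_cases n <;> simp_all (config := { decide := true })
      exact this P.p hp5 hlt hpp
    rcases hcases with h | h | h | h
    · exact Fermat.Agent.S10.result P (Or.inl h) hline
    · exact Fermat.Agent.S10.result P (Or.inr (Or.inl h)) hline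
    · exact Fermat.Agent.S11.result P h hline
    · exact Fermat.Agent.S10.result P (Or.inr (Or.inr h)) hline

/-- `S04 ∧ S09 ∧ S45 ⟹ S03`. -/
theorem h69_S03_of (h04 : h69_S04) (h09 : h69_S09) (h45 : h69_S45) : h69_S03 := by
  intro P
  obtain ⟨f, hf⟩ := h45 P (h04 P) (h09 P)
  exact hf (Fermat.Agent.S07.result f)

/-- Descent on the level: from a conductor level `N` with a residually modular eigenform to a
level dividing `2`. -/
theorem h69_level_two_of (h43 : h69_S43) (h44 : h69_S44) (P : FreyPackage)
    (hirr : GaloisRepIsIrreducible (K := AlgebraicClosure ℚ) ℚ P.freyCurve P.p) :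
    ∀ N : ℕ, P.IsConductorLevel N → P.ModularRepOfLevel N →
      ∃ M : ℕ, M ∣ 2 ∧ P.IsConductorLevel M ∧ P.ModularRepOfLevel M := by
  intro N
  induction N using Nat.strong_induction_on with
  | _ N ih =>
    intro hcond hmod
    by_cases hall : ∀ q : ℕ, q.Prime → q ∣ N → q = 2
    · -- `N` is squarefree with only the prime `2`
      refine ⟨N, ?_, hcond, hmod⟩
      have hsq := hcond.squarefree
      have h1 : N ∣ 2 := by
        rcases Nat.eq_or_lt_of_le (Nat.succ_le_of_lt hcond.pos) with h | h
        · rw [← h]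
          exact one_dvd _
        · -- `N > 1`: its only prime factor is `2`
          have hfac : N.primeFactors ⊆ {2} := by
            intro q hq
            rw [Nat.mem_primeFactors] at hq
            rw [Finset.mem_singleton]
            exact hall q hq.1 hq.2.1
          have hrad : N = ∏ q ∈ N.primeFactors, q := (Nat.prod_primeFactors_of_squarefree hsq).symm
          rw [hrad]
          have : ∏ q ∈ N.primeFactors, q ∣ ∏ q ∈ ({2} : Finset ℕ), q :=
            Finset.prod_dvd_prod_of_subset _ _ _ hfac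
          simpa using this
      exact h1
    · push Not at hall
      obtain ⟨q, hq, hqN, hq2⟩ := hall
      have hlt : ∀ M : ℕ, M ∣ N → ¬ q ∣ M → M < N := by
        intro M hMN hqM
        refine lt_of_le_of_ne (Nat.le_of_dvd hcond.pos hMN) ?_
        rintro rfl
        exact hqM hqN
      by_cases hqp : q = P.p
      · obtain ⟨M, hMN, hpM, hM⟩ := h44 P hcond (hqp ▸ hqN) hirr hmod
        have hMpos : 0 < M := Nat.pos_of_dvd_of_pos hMN hcond.pos
        exact ih M (hlt M hMN (hqp ▸ hpM)) (hcond.of_dvd hMN hMpos) hM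
      · obtain ⟨M, hMN, hqM, hM⟩ := h43 P hcond hq hq2 hqp hqN hirr hmod
          (Fermat.Agent.S05.result P hq hq2 hqp)
        have hMpos : 0 < M := Nat.pos_of_dvd_of_pos hMN hcond.pos
        exact ih M (hlt M hMN hqM) (hcond.of_dvd hMN hMpos) hM

/-- `S06 ∧ S43 ∧ S44 ⟹ S45` (the modularity hypothesis of S45 is not used). -/
theorem h69_S45_of (h06 : h69_S06) (h43 : h69_S43) (h44 : h69_S44) : h69_S45 := by
  intro P _ hirr
  obtain ⟨N, hcond, hmod⟩ := h06 P
  obtain ⟨M, hM2, -, hM⟩ := h69_level_two_of h43 h44 P hirr N hcond hmod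
  have hM12 : M = 1 ∨ M = 2 := (Nat.dvd_prime Nat.prime_two).mp hM2
  rcases hM12 with rfl | rfl
  · obtain ⟨f, -, -, hf, -⟩ := hM
    exact absurd (Fermat.Agent.S08.result f) hf.ne_zero
  · obtain ⟨f, -, -, hf, -⟩ := hM
    exact ⟨f, hf.ne_zero⟩

/-- The type of the frozen statement S01. -/
def h69_S01 : Prop :=
  ∀ (n : ℕ), 3 ≤ n → ∀ (a b c : ℕ), 0 < a → 0 < b → 0 < c → a ^ n + b ^ n ≠ c ^ n

/-- `S03 ⟹ S01` (Mathlib's exponents 3 and 4, S02 on main). -/
theorem h69_S01_of (h03 : h69_S03) : h69_S01 := by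
  have hFLT : FermatLastTheorem := by
    refine FermatLastTheorem.of_odd_primes ?_
    intro p hp hodd
    by_cases h3 : p = 3
    · rw [h3]
      exact fermatLastTheoremThree
    · have hp5 : 5 ≤ p := by
        have h2 := hp.two_le
        rcases Nat.lt_or_ge p 5 with h | h
        · interval_cases p
          · exact absurd hodd (by decide)
          · exact absurd rfl h3
          · exact absurd hp (by decide)
        · exact h
      rw [fermatLastTheoremFor_iff_int]
      intro a b c ha hb hc H
      obtain ⟨P⟩ := Fermat.Agent.S02.result a b c ha hb hc p hp hp5 H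
      exact h03 P
  intro n hn a b c ha hb hc
  exact hFLT n hn a b c ha.ne' hb.ne' hc.ne'

end Fermat.Agent.GLUE
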