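import Mathlib
import Fermat.Agent.GLUE.h69_GlueOf
import Fermat.Agent.GLUE.h69_GlueMod

/-!
# GLUE (helper69): the integral Frey model and the wiring of S04, S06

* `h69_frey_map` : `P.freyCurveInt.map (Int.castRingHom ℚ) = P.freyCurve`;
* `h69_frey_c4`, `h69_frey_disc` : `c₄ = A² + AB + B²`, `Δ = β² (A + B)²` with `16 β = -AB`
  (`A = a^p`, `B = b^p`);
* `h69_frey_disc_ne_zero`, `h69_frey_semistable`, `h69_frey_disc_support`;
* `h69_S04_of` : `S60 ⟹ S04`;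
* `h69_S06_of` : exact-conductor-level modularity of semistable curves `⟹ S06`.
-/

set_option autoImplicit false

open WeierstrassCurve

namespace Fermat.Agent.GLUE

theorem h69_frey_two_dvd_b (P : FreyPackage) : (2 : ℤ) ∣ P.b :=
  (ZMod.intCast_zmod_eq_zero_iff_dvd P.b 2).1 P.hb2

theorem h69_frey_thirtytwo_dvd (P : FreyPackage) : (32 : ℤ) ∣ P.b ^ P.p := by
  obtain ⟨k, hk⟩ := h69_frey_two_dvd_b P
  have hp : P.p = 5 + (P.p - 5) := by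
    have := P.hp5
    omega
  rw [hk, hp, pow_add, mul_pow]
  exact Dvd.dvd.mul_right ⟨k ^ 5, by ring⟩ _

theorem h69_frey_four_dvd (P : FreyPackage) : (4 : ℤ) ∣ P.b ^ P.p - 1 - P.a ^ P.p := by
  have hb4 : (4 : ℤ) ∣ P.b ^ P.p := dvd_trans ⟨8, by norm_num⟩ (h69_frey_thirtytwo_dvd P)
  have ha : (((P.a ^ P.p : ℤ)) : ZMod 4) = 3 := by
    push_cast
    rw [P.ha4]
    obtain ⟨k, hk⟩ := P.hp_odd
    have h9 : (3 : ZMod 4) ^ 2 = 1 := by decide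
    rw [hk, pow_succ, pow_mul, h9, one_pow, one_mul]
  have hb : (((P.b ^ P.p : ℤ)) : ZMod 4) = 0 :=
    (ZMod.intCast_zmod_eq_zero_iff_dvd _ 4).2 hb4
  have h0 : (((P.b ^ P.p - 1 - P.a ^ P.p : ℤ)) : ZMod 4) = 0 := by
    rw [Int.cast_sub, Int.cast_sub, hb, ha]
    decide
  have := (ZMod.intCast_zmod_eq_zero_iff_dvd (P.b ^ P.p - 1 - P.a ^ P.p) 4).1 h0
  exact_mod_cast this

theorem h69_frey_sixteen_dvd (P : FreyPackage) : (16 : ℤ) ∣ -(P.a ^ P.p) * P.b ^ P.p :=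
  Dvd.dvd.mul_left (dvd_trans ⟨2, by norm_num⟩ (h69_frey_thirtytwo_dvd P)) _

/-- The integral Frey model maps to the rational Frey curve. -/
theorem h69_frey_map (P : FreyPackage) :
    P.freyCurveInt.map (Int.castRingHom ℚ) = P.freyCurve := by
  have h4 := h69_frey_four_dvd P
  have h16 := h69_frey_sixteen_dvd P
  ext
  · simp [FreyPackage.freyCurveInt, FreyPackage.freyCurve, WeierstrassCurve.map]
  · simp only [FreyPackage.freyCurveInt, FreyPackage.freyCurve, WeierstrassCurve.map,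
      eq_intCast]
    rw [Int.cast_div h4 (by norm_num)]
    push_cast
    ring
  · simp [FreyPackage.freyCurveInt, FreyPackage.freyCurve, WeierstrassCurve.map]
  · simp only [FreyPackage.freyCurveInt, FreyPackage.freyCurve, WeierstrassCurve.map,
      eq_intCast]
    rw [Int.cast_div h16 (by norm_num)]
    push_cast
    ring
  · simp [FreyPackage.freyCurveInt, FreyPackage.freyCurve, WeierstrassCurve.map]

/-- `c₄` and `Δ` of the integral Frey model, in terms of `β` with `16 β = -a^p b^p`. -/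
theorem h69_frey_c4_disc (P : FreyPackage) :
    ∃ β : ℤ, 16 * β = -(P.a ^ P.p) * P.b ^ P.p ∧
      P.freyCurveInt.c₄ = (P.a ^ P.p) ^ 2 + P.a ^ P.p * P.b ^ P.p + (P.b ^ P.p) ^ 2 ∧
      P.freyCurveInt.Δ = β ^ 2 * (P.c ^ P.p) ^ 2 := by
  obtain ⟨α, hα⟩ := h69_frey_four_dvd P
  obtain ⟨β, hβ⟩ := h69_frey_sixteen_dvd P
  have ha2 : (P.b ^ P.p - 1 - P.a ^ P.p) / 4 = α := by
    rw [hα]
    exact Int.mul_ediv_cancel_left _ (by norm_num)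
  have ha4 : -(P.a ^ P.p) * P.b ^ P.p / 16 = β := by
    rw [hβ]
    exact Int.mul_ediv_cancel_left _ (by norm_num)
  have hc : P.c ^ P.p = P.a ^ P.p + P.b ^ P.p := P.hFLT.symm
  refine ⟨β, hβ.symm, ?_, ?_⟩
  · simp only [WeierstrassCurve.c₄, WeierstrassCurve.b₂, WeierstrassCurve.b₄,
      FreyPackage.freyCurveInt, ha2, ha4]
    linear_combination (-(1 + 4 * α + P.b ^ P.p - P.a ^ P.p)) * hα + 3 * hβ
  · simp only [WeierstrassCurve.Δ, WeierstrassCurve.b₂, WeierstrassCurve.b₄,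
      WeierstrassCurve.b₆, WeierstrassCurve.b₈, FreyPackage.freyCurveInt, ha2, ha4, hc]
    linear_combination (-(β ^ 2 * (1 + 4 * α + P.b ^ P.p - P.a ^ P.p))) * hα + 4 * β ^ 2 * hβ

theorem h69_frey_disc_ne_zero (P : FreyPackage) : P.freyCurveInt.Δ ≠ 0 := by
  obtain ⟨β, hβ, -, hΔ⟩ := h69_frey_c4_disc P
  rw [hΔ]
  have hβ0 : β ≠ 0 := by
    rintro rfl
    have h0 : -(P.a ^ P.p) * P.b ^ P.p = 0 := by
      rw [← hβ]
      ring
    exact mul_ne_zero (neg_ne_zero.mpr (pow_ne_zero P.p P.ha0)) (pow_ne_zero P.p P.hb0) h0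
  exact mul_ne_zero (pow_ne_zero 2 hβ0) (pow_ne_zero 2 (pow_ne_zero P.p P.hc0))

/-- The bad primes of the integral Frey model divide `abc`. -/
theorem h69_frey_disc_support (P : FreyPackage) {ℓ : ℕ} (hℓ : ℓ.Prime)
    (h : (ℓ : ℤ) ∣ P.freyCurveInt.Δ) : (ℓ : ℤ) ∣ P.a * P.b * P.c := by
  have hℓ' : Prime (ℓ : ℤ) := Nat.prime_iff_prime_int.mp hℓ
  obtain ⟨β, hβ, -, hΔ⟩ := h69_frey_c4_disc P
  rw [hΔ] at h
  rcases hℓ'.dvd_or_dvd h with h1 | h1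
  · have h2 : (ℓ : ℤ) ∣ β := hℓ'.dvd_of_dvd_pow h1
    have h3 : (ℓ : ℤ) ∣ -(P.a ^ P.p) * P.b ^ P.p := by
      rw [← hβ]
      exact Dvd.dvd.mul_left h2 _
    rcases hℓ'.dvd_or_dvd h3 with h4 | h4
    · have h5 : (ℓ : ℤ) ∣ P.a := hℓ'.dvd_of_dvd_pow ((dvd_neg).mp h4)
      exact Dvd.dvd.mul_right (Dvd.dvd.mul_right h5 _) _
    · have h5 : (ℓ : ℤ) ∣ P.b := hℓ'.dvd_of_dvd_pow h4
      exact Dvd.dvd.mul_right (Dvd.dvd.mul_left h5 _) _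
  · have h5 : (ℓ : ℤ) ∣ P.c := hℓ'.dvd_of_dvd_pow (hℓ'.dvd_of_dvd_pow h1)
    exact Dvd.dvd.mul_left h5 _

/-- The integral Frey model is semistable. -/
theorem h69_frey_semistable (P : FreyPackage) : P.freyCurveInt.IsSemistableModel := by
  intro ℓ hℓ hΔ hc4
  have hℓ' : Prime (ℓ : ℤ) := Nat.prime_iff_prime_int.mp hℓ
  obtain ⟨β, hβ, hc, hΔ'⟩ := h69_frey_c4_disc P
  rw [hc] at hc4
  rw [hΔ'] at hΔ
  have hab : ¬ ((ℓ : ℤ) ∣ P.a ∧ (ℓ : ℤ) ∣ P.b) := by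
    rintro ⟨h1, h2⟩
    have h3 := dvd_gcd h1 h2
    rw [P.hgcdab] at h3
    exact hℓ'.not_dvd_one h3
  have hac : ¬ ((ℓ : ℤ) ∣ P.a ∧ (ℓ : ℤ) ∣ P.c) := by
    rintro ⟨h1, h2⟩
    have h3 := dvd_gcd h1 h2
    rw [P.hgcdac] at h3
    exact hℓ'.not_dvd_one h3
  have hbc : ¬ ((ℓ : ℤ) ∣ P.b ∧ (ℓ : ℤ) ∣ P.c) := by
    rintro ⟨h1, h2⟩
    have h3 := dvd_gcd h1 h2
    rw [P.hgcdbc] at h3
    exact hℓ'.not_dvd_one h3
  rcases hℓ'.dvd_or_dvd hΔ with h1 | h1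
  · have h2 : (ℓ : ℤ) ∣ β := hℓ'.dvd_of_dvd_pow h1
    have h3 : (ℓ : ℤ) ∣ -(P.a ^ P.p) * P.b ^ P.p := by
      rw [← hβ]
      exact Dvd.dvd.mul_left h2 _
    rcases hℓ'.dvd_or_dvd h3 with h4 | h4
    · have ha : (ℓ : ℤ) ∣ P.a ^ P.p := (dvd_neg).mp h4
      have hB : (ℓ : ℤ) ∣ (P.b ^ P.p) ^ 2 := by
        have e : (P.b ^ P.p) ^ 2 = ((P.a ^ P.p) ^ 2 + P.a ^ P.p * P.b ^ P.p + (P.b ^ P.p) ^ 2) -
            P.a ^ P.p * (P.a ^ P.p + P.b ^ P.p) := by ring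
        rw [e]
        exact dvd_sub hc4 (Dvd.dvd.mul_right ha _)
      exact hab ⟨hℓ'.dvd_of_dvd_pow ha, hℓ'.dvd_of_dvd_pow (hℓ'.dvd_of_dvd_pow hB)⟩
    · have hA : (ℓ : ℤ) ∣ (P.a ^ P.p) ^ 2 := by
        have e : (P.a ^ P.p) ^ 2 = ((P.a ^ P.p) ^ 2 + P.a ^ P.p * P.b ^ P.p + (P.b ^ P.p) ^ 2) -
            P.b ^ P.p * (P.a ^ P.p + P.b ^ P.p) := by ring
        rw [e]
        exact dvd_sub hc4 (Dvd.dvd.mul_right h4 _)
      exact hab ⟨hℓ'.dvd_of_dvd_pow (hℓ'.dvd_of_dvd_pow hA), hℓ'.dvd_of_dvd_pow h4⟩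
  · have hC : (ℓ : ℤ) ∣ P.c ^ P.p := hℓ'.dvd_of_dvd_pow h1
    have hcp : P.c ^ P.p = P.a ^ P.p + P.b ^ P.p := P.hFLT.symm
    have hAB : (ℓ : ℤ) ∣ P.a ^ P.p * P.b ^ P.p := by
      have e : P.a ^ P.p * P.b ^ P.p = P.c ^ P.p * P.c ^ P.p -
          ((P.a ^ P.p) ^ 2 + P.a ^ P.p * P.b ^ P.p + (P.b ^ P.p) ^ 2) := by
        rw [hcp]
        ring
      rw [e]
      exact dvd_sub (Dvd.dvd.mul_right hC _) hc4
    rcases hℓ'.dvd_or_dvd hAB with h | h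
    · exact hac ⟨hℓ'.dvd_of_dvd_pow h, hℓ'.dvd_of_dvd_pow hC⟩
    · exact hbc ⟨hℓ'.dvd_of_dvd_pow h, hℓ'.dvd_of_dvd_pow hC⟩

/-- `S60 ⟹ S04`. -/
theorem h69_S04_of (h60 : h69_S60) : h69_S04 := by
  intro P
  have h := h60 P.freyCurveInt (h69_frey_disc_ne_zero P) (h69_frey_semistable P)
  rwa [h69_frey_map] at h

/-- Exact-conductor-level modularity of semistable curves `⟹ S06`. -/
theorem h69_S06_of (hmlc : ∀ W : WeierstrassCurve ℤ, W.Δ ≠ 0 → W.IsSemistableModel →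
    Mlc1IsModularModelOfExactConductorLevel W) : h69_S06 := by
  intro P
  obtain ⟨N, hN, hsq, hiff, f, hf, hap⟩ :=
    hmlc P.freyCurveInt (h69_frey_disc_ne_zero P) (h69_frey_semistable P)
  obtain ⟨𝔪, h𝔪, hp𝔪⟩ := FLTPrelim.exists_maximalIdeal_natCast_prime_mem P.pp
  refine ⟨N, ⟨hN, hsq, fun q hq hqN => h69_frey_disc_support P hq ((hiff q hq).mp hqN)⟩,
    f, P.freyCurveInt, 𝔪, hf, ⟨1, ?_⟩, h𝔪, hp𝔪, ?_⟩
  · rw [one_smul, h69_frey_map]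
  · intro ℓ hℓ hgood hℓN _
    refine ⟨((P.freyCurveInt.apOfModel ℓ : ℤ) : integralClosure ℤ ℂ), ?_, ?_⟩
    · rw [hap ℓ hℓ hgood hℓN]
      simp
    · rw [sub_self]
      exact zero_mem _

/-- **Fermat's Last Theorem from the five walls** S12 (Mazur), S43 (Ribet, Frey form), S44
(Mazur–Ribet at `p`, Frey form), S59 (modularity lifting) and LT3 (Langlands–Tunnell with the
`3`-part of the level under control). -/
theorem h69_S01_of_walls (h12 : h69_S12) (h43 : h69_S43) (h44 : h69_S44) (h59 : h69_S59)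
    (hLT : h69_LT3) : h69_S01 := by
  have h60 : h69_S60 := h69_S60_of h59 hLT
  have h04 : h69_S04 := h69_S04_of h60
  have h06 : h69_S06 := h69_S06_of (h69_mlc1_of h59 hLT)
  have h09 : h69_S09 := h69_S09_of h12
  have h45 : h69_S45 := h69_S45_of h06 h43 h44
  exact h69_S01_of (h69_S03_of h04 h09 h45)

end Fermat.Agent.GLUE
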